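import Fermat.Agent.LTG.K.DensK
import Fermat.Agent.LTG.Top.Iface
import Fermat.Agent.LT.H5.AsaiDens

/-!
# LTG piece H5: the sets `A1`, `A2` of primes and their densities (inputs of `asai_end`)
(clone of LT/H5/AsaiDens for `OctaG`; helper47)
-/

set_option autoImplicit false

open Matrix NumberField IsDedekindDomain Filter Topology Pointwise
open Fermat.LT Fermat.Agent.LT.D Fermat.Agent.LT.K Fermat.Agent.LT.J
open Fermat.Agent.LTG.K (OctaG)
open Fermat.Agent.DedekindEuler Fermat.Agent.FrobDensity Fermat.Agent.Density.Crossing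

namespace Fermat.Agent.LT.H5

local notation "Γℚ" => (AlgebraicClosure ℚ ≃ₐ[ℚ] AlgebraicClosure ℚ)
local notation "ℚbar" => AlgebraicClosure ℚ

section octa

variable (R : OctaG)

theorem inertia_Q8_of_G3_G {v : Pl R.K} (hI : (R.ab v).inertia G3 = ⊥) :
    (R.ab v).inertia Q8 = ⊥ := by
  rw [eq_bot_iff]
  intro h hh
  have h2 : (h : G3) ∈ (R.ab v).inertia G3 := fun x => hh x
  rw [hI, Subgroup.mem_bot] at h2
  rw [Subgroup.mem_bot]
  exact Subtype.ext h2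

/-- places of degree one with Frobenius `± 1` -/
theorem exists_above_Z2_G (v : Pl R.K) (hp : (Ideal.absNorm v.asIdeal).Prime)
    (hI : (R.ab v).inertia G3 = ⊥) {A' : ValuationSubring ℚbar} {σ' : Γℚ}
    (hA' : A'.LiesOverPrime (below v)) (hσ' : A'.IsFrobeniusAt σ' (below v))
    (hZ : R.ρ σ' ∈ Z2) :
    ∃ w : Pl R.L, Above v w ∧ qv w = qv v ∧ R.lam w = trQ (R.ρ σ') := by
  obtain ⟨ℓ, A, hℓ, hA, hcen⟩ := R.exists_cen_eq (R.ab v) (R.ab_ne_bot v)
  have hbl := R.below_eq_of_cen hℓ hA hcen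
  rw [hbl] at hA' hσ'
  obtain ⟨σ, hσ⟩ := FrobExists.exists_isFrobeniusAt A hℓ hA
  have hF : IsArithFrobAt ℤ (R.ρ σ) (R.ab v) := by
    rw [← hcen]; exact R.isArithFrobAt_of_isFrobeniusAt hℓ hA hσ
  have hcardv : Nat.card (𝓞 R.K ⧸ (R.ab v).under (𝓞 R.K)) =
      Nat.card (ℤ ⧸ (R.ab v).under ℤ) := by
    rw [R.card_quot_int', below_eq_absNorm hp, Ideal.absNorm_apply, Submodule.cardQuot_apply,
      R.under_ab]
  have hF' : IsArithFrobAt ℤ (R.fr v : G3) (R.ab v) := by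
    intro x
    have h1 := R.fr_spec v x
    rw [hcardv] at h1
    exact h1
  have h5 := hF.mul_inv_mem_inertia hF'
  rw [hI, Subgroup.mem_bot, mul_inv_eq_one] at h5
  obtain ⟨h, hh⟩ := R.frob_conj hℓ hA hA' hσ hσ' (by rw [hcen]; exact hI)
  rw [conj_mem_Z2 hZ, h5] at hh
  obtain ⟨w, h1, h2, h3⟩ := R.exists_above_of_mem v hp
    (by rw [hh]; exact Z2_le_C4.trans C4_le_Q8 hZ) (inertia_Q8_of_G3_G R hI)
  exact ⟨w, h1, h2, by rw [h3, hh]⟩

theorem mod_three_of_plc_G {T : Finset ℕ} (h3 : 3 ∈ T) {X : Set G3} {e : ZMod 3}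
    (hX : ∀ g ∈ X, K.dt g = e) {p : ℕ} (hp : p ∈ R.plc T X) : ((p : ℕ) : ZMod 3) = e := by
  obtain ⟨hp, hpT, A', σ', hA', hσ', hX'⟩ := hp
  have hp3 : p ≠ 3 := by rintro rfl; exact hpT h3
  rw [← R.dt_frob_eq hp hp3 hA' hσ', hX _ hX']

/-- `D1`, `D2` in the form of a sum over a subtype -/
theorem tendsto_plc_subtype_G (T : Finset ℕ) {X : Set G3}
    (hX : ∀ g h : G3, g ∈ X → h * g * h⁻¹ ∈ X) :
    Tendsto (fun s : ℝ => (∑' p : R.plc T X, ((p : ℕ) : ℝ) ^ (-s)) / Real.log (1 / (s - 1)))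
      (𝓝[>] 1) (𝓝 ((Nat.card X : ℝ) / 48)) := by
  refine (R.tendsto_plc T hX).congr fun s => ?_
  rw [tsum_subtype (R.plc T X) (fun ℓ : ℕ => (ℓ : ℝ) ^ (-s))]

variable {D : Datum R.K} (E : Eis3 D)

theorem below_plc_G {π : EO} (hπ : Prime π) {p : ℕ} (hp : p.Prime)
    (h : ((p : ℕ) : EO) ∈ Ideal.span {π}) : below (E.plc π hπ) = p := by
  rw [below_eq_iff _ hp, E.plc_asIdeal, Ideal.mem_span_singleton]
  rw [Ideal.mem_span_singleton] at h
  have := map_dvd E.eO h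
  rwa [map_natCast] at this

theorem absNorm_plc_G {π : EO} (hπ : Prime π) {p : ℕ} (h : QE.nm π = (p : ℤ)) :
    Ideal.absNorm (E.plc π hπ).asIdeal = p := by
  have := E.absNorm_span π
  rw [E.plc_asIdeal]
  rw [h] at this
  exact_mod_cast this

theorem nD_eq_zero_G {M : ℕ} (hlev : Top.LevelDvd D M) (v : Pl R.K) (h : ¬ below v ∣ M) :
    D.n v = 0 := by
  apply hlev.good
  refine le_antisymm ?_ ?_
  · have := CTree.av_algebraMap_le_one v ((M : ℕ) : 𝓞 R.K)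
    rwa [map_natCast] at this
  · by_contra hlt
    rw [not_le] at hlt
    have h1 := (CTree.av_algebraMap_lt_one_iff v ((M : ℕ) : 𝓞 R.K)).mp (by
      rwa [map_natCast])
    exact h ((natCast_mem_iff v M).mp h1)

/-- **The sets `A1`, `A2` of `asai_end`.** -/
theorem asai_dens_inputs_G {lam : Pl R.K → ℝ} (hc : Top.Compat_G R D lam) {M : ℕ} (hM : M ≠ 0)
    (hlev : Top.LevelDvd D M) {ϖ : ℕ → EO}
    (hϖ : ∀ p : ℕ, p.Prime → p % 3 = 1 → QE.nm (ϖ p) = (p : ℤ)) {lamE : EO → ℝ}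
    (hlamE : ∀ (π : EO) (hπ : Prime π), lamE π = lam (E.plc π hπ)) {l l' : ℕ → ℝ}
    (hl1 : ∀ p : ℕ, p.Prime → p % 3 = 1 → l p = lamE (ϖ p))
    (hl2 : ∀ p : ℕ, p.Prime → p % 3 = 2 → l p = lamE (p : EO))
    (hl' : ∀ p : ℕ, p.Prime → p % 3 = 1 → l' p = lamE (star (ϖ p))) (T0 : Finset ℕ) :
    ∃ (T : Finset ℕ) (A1 A2 : Set ℕ), T0 ⊆ T ∧ (∀ p : ℕ, p.Prime → p ∣ M → p ∈ T) ∧
      (∀ p ∈ A1, p.Prime ∧ p % 3 = 1 ∧ p ∉ T ∧ l p = l' p ∧ l p ^ 2 = 4) ∧
      (∀ p ∈ A2, p.Prime ∧ p % 3 = 2 ∧ p ∉ T ∧ l p = 2) ∧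
      (∀ p : ℕ, p.Prime → p % 3 = 2 → p ∉ T → p ∉ A2 → l p = 0) ∧
      Tendsto (fun s : ℝ => (∑' p : A1, ((p : ℕ) : ℝ) ^ (-s)) / Real.log (1 / (s - 1)))
        (𝓝[>] 1) (𝓝 (1 / 24)) ∧
      Tendsto (fun s : ℝ => (∑' p : A2, ((p : ℕ) : ℝ) ^ (-s)) / Real.log (1 / (s - 1)))
        (𝓝[>] 1) (𝓝 (1 / 4)) := by
  classical
  obtain ⟨T, hT, hB⟩ := exists_bad R.N (T0 ∪ M.primeFactors ∪ {3})
  have h3T : 3 ∈ T := hT (by simp)
  have hMT : ∀ p : ℕ, p.Prime → p ∣ M → p ∈ T := fun p hp hpM => hT (by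
    rw [Finset.mem_union, Finset.mem_union]
    exact Or.inl (Or.inr (Nat.mem_primeFactors.mpr ⟨hp, hpM, hM⟩)))
  have hgood : ∀ v : Pl R.K, below v ∉ T → D.n v = 0 ∧ (R.ab v).inertia G3 = ⊥ := fun v hv =>
    ⟨nD_eq_zero_G R hlev v (fun h => hv (hMT _ (below_prime v) h)), R.inertia_ab_eq_bot hB v hv⟩
  refine ⟨T, R.plc T Z2, R.plc T OctaG.X3, fun p hp => hT (by
    rw [Finset.mem_union, Finset.mem_union]; exact Or.inl (Or.inl hp)), hMT, ?_, ?_, ?_, ?_, ?_⟩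
  · intro p hpA
    have hcast := mod_three_of_plc_G R h3T (e := ((1 : ℕ) : ZMod 3)) (fun g hg => by
      rcases mem_Z2.mp hg with h | h <;> rw [h] <;> decide) hpA
    have hmod := mod_eq_of_cast 1 (by norm_num) hcast
    obtain ⟨hp, hpT, A', σ', hA', hσ', hZ⟩ := hpA
    have key : ∀ π : EO, QE.nm π = (p : ℤ) → lamE π = trQ (R.ρ σ') := by
      intro π hπn
      have hπ : Prime π := prime_of_nm hp hπn
      have hN := absNorm_plc_G R E hπ hπn
      have hbl : below (E.plc π hπ) = p := by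
        rw [below_eq_absNorm (by rw [hN]; exact hp), hN]
      obtain ⟨hn, hI⟩ := hgood (E.plc π hπ) (by rw [hbl]; exact hpT)
      obtain ⟨w, hw1, hw2, hw3⟩ := exists_above_Z2_G R (E.plc π hπ) (by rw [hN]; exact hp) hI
        (by rw [hbl]; exact hA') (by rw [hbl]; exact hσ') hZ
      rw [hlamE π hπ, hc _ w hn hw1 hw2, hw3]
    have k1 := key (ϖ p) (hϖ p hp hmod)
    have k2 := key (star (ϖ p)) (by rw [nm_star_self]; exact hϖ p hp hmod)
    refine ⟨hp, hmod, hpT, ?_, ?_⟩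
    · rw [hl1 p hp hmod, hl' p hp hmod, k1, k2]
    · rw [hl1 p hp hmod, k1]
      exact trQ_sq_of_Z2 hZ
  · intro p hpA
    have hcast := mod_three_of_plc_G R h3T (e := ((2 : ℕ) : ZMod 3)) (fun g hg => by
      rw [hg.1]; decide) hpA
    have hmod := mod_eq_of_cast 2 (by norm_num) hcast
    obtain ⟨hp, hpT, A', σ', hA', hσ', hX⟩ := hpA
    refine ⟨hp, hmod, hpT, ?_⟩
    have hπ : Prime ((p : ℕ) : EO) := prime_of_mod_two hp hmod
    have hbl : below (E.plc (p : EO) hπ) = p :=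
      below_plc_G R E hπ hp (Ideal.mem_span_singleton_self _)
    obtain ⟨hn, hI⟩ := hgood (E.plc (p : EO) hπ) (by rw [hbl]; exact hpT)
    obtain ⟨-, w, hw1, hw2, hw3, hw4⟩ := R.exists_above_inert (E.plc (p : EO) hπ)
      (by rw [hbl]; exact hmod) hI
    rw [hbl] at hw4
    have h5 := hw4 A' σ' hA' hσ'
    rw [hX.2] at h5
    have h4 : trQ (1 : G3) = 2 := by rw [trQ, if_pos rfl]
    rw [hl2 p hp hmod, hlamE _ hπ, hc _ w hn hw1 hw2, h5, h4]
    norm_num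
  · intro p hp hmod hpT hpA
    have hπ : Prime ((p : ℕ) : EO) := prime_of_mod_two hp hmod
    have hbl : below (E.plc (p : EO) hπ) = p :=
      below_plc_G R E hπ hp (Ideal.mem_span_singleton_self _)
    obtain ⟨hn, hI⟩ := hgood (E.plc (p : EO) hπ) (by rw [hbl]; exact hpT)
    obtain ⟨-, w, hw1, hw2, hw3, hw4⟩ := R.exists_above_inert (E.plc (p : EO) hπ)
      (by rw [hbl]; exact hmod) hI
    rw [hbl] at hw4
    rw [hl2 p hp hmod, hlamE _ hπ, hc _ w hn hw1 hw2]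
    rcases hw3 with h | h
    · exfalso
      obtain ⟨A', hA'⟩ := FrobExists.exists_liesOverPrime ℚbar hp
      obtain ⟨σ', hσ'⟩ := FrobExists.exists_isFrobeniusAt A' hp hA'
      apply hpA
      refine ⟨hp, hpT, A', σ', hA', hσ', ?_, ?_⟩
      · have hp3 : p ≠ 3 := by rintro rfl; exact hpT h3T
        rw [R.dt_frob_eq hp hp3 hA' hσ']
        have h4 : ((p : ℕ) : ZMod 3) = ((p % 3 : ℕ) : ZMod 3) := by rw [ZMod.natCast_mod]
        rw [h4, hmod]; decide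
      · have h5 := hw4 A' σ' hA' hσ'
        rw [h] at h5
        by_contra e1
        rw [trQ, if_neg e1] at h5
        split_ifs at h5
        omega
    · rw [h]; norm_num
  · have h1 := tendsto_plc_subtype_G R T (X := (Z2 : Set G3)) (fun g h hg => by
      rw [conj_mem_Z2 hg]; exact hg)
    have h2 : ((Nat.card (Z2 : Set G3) : ℝ)) / 48 = 1 / 24 := by
      have : Nat.card (Z2 : Set G3) = 2 := card_Z2
      rw [this]; norm_num
    rw [h2] at h1
    exact h1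
  · have h1 := tendsto_plc_subtype_G R T (X := OctaG.X3) (fun g h hg => OctaG.X3_conj g h hg)
    have h2 : ((Nat.card OctaG.X3 : ℝ)) / 48 = 1 / 4 := by
      rw [OctaG.card_X3]; norm_num
    rw [h2] at h1
    exact h1

end octa

end Fermat.Agent.LT.H5
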