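import Fermat.Agent.LTG.H5.Final
import Fermat.Agent.LTG.H5.AsaiDens
import Fermat.Agent.LT.H5.PeriodNe

/-!
LTG piece H5: non-vanishing of the Asai period, hence `thetaJ_G (R : OctaG) : ThetaJ_G R`.
(clone of LT/H5/PeriodNe for `OctaG`; helper47)
-/

set_option autoImplicit false

open Matrix MeasureTheory Set NumberField Filter Topology

noncomputable section

namespace Fermat.Agent.LT.H5

open Fermat.LT Fermat.Agent.LT.J Fermat.Agent.LT.K Fermat.Agent.LT.D
open Fermat.Agent.LTG.K (OctaG)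

theorem asaiIn_G (R : OctaG) : AsaiIn_G R := by
  intro D M hM0 lam Φ hlev hΦ hcomp E lamE hlamE ϖ hϖ T₀
  let l : ℕ → ℝ := fun p => if p % 3 = 1 then lamE (ϖ p) else lamE (p : EO)
  have l1 : ∀ p : ℕ, p % 3 = 1 → l p = lamE (ϖ p) := fun p h => if_pos h
  have l2 : ∀ p : ℕ, p % 3 = 2 → l p = lamE (p : EO) := fun p h => if_neg (by omega)
  obtain ⟨T, A1, A2, h1, h2, h3, h4, h5, h6, h7⟩ :=
    asai_dens_inputs_G R E hcomp (NeZero.ne M) hlev hϖ hlamE (l := l)
      (l' := fun p => lamE (star (ϖ p))) (fun p _ h => l1 p h) (fun p _ h => l2 p h)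
      (fun p _ _ => rfl) T₀
  refine ⟨T, A1, A2, h1, h2, fun p hp => ?_, fun p hp => ?_, fun p a b c d => ?_, h6, h7⟩
  · obtain ⟨a, b, c, d, e⟩ := h3 p hp
    rw [l1 p b] at d e
    exact ⟨a, b, c, d, e⟩
  · obtain ⟨a, b, c, d⟩ := h4 p hp
    rw [l2 p b] at d
    exact ⟨a, b, c, d⟩
  · have := h5 p a b c d
    rwa [l2 p b] at this

/-- **Non-vanishing of the Asai period.** -/
theorem periodNe_G (R : OctaG) : Top.PeriodNe_G R := periodNe_of_G (asaiIn_G R)

/-- **Theta lift.** -/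
theorem thetaJ_G (R : OctaG) : Top.ThetaJ_G R := Top.thetaJ_of_G R (periodNe_G R)

end Fermat.Agent.LT.H5
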